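/-
S44 / X / COVER / UNIF (owner helper223): valuation rings of an algebraic extension above a discrete
valuation ring are archimedean; separation of finitely many pairwise incomparable archimedean
valuation rings.
-/
import Mathlib
import Fermat.Agent.S18.Defs
import Fermat.Agent.S36.BP.Approx

set_option autoImplicit false

noncomputable section

namespace Fermat.Agent.S44.X.Cover.Unif

open Fermat.Agent.S18 Fermat.Agent.S36.BP Filter

section T

variable {E F : Type*} [Field E] [Field F] [Algebra E F]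

/-- the value group of an algebraic extension is torsion over the value group of the base -/
theorem exists_pow_val_eq [Algebra.IsAlgebraic E F] (W : ValuationSubring F) {w : F}
    (hw : w ≠ 0) :
    ∃ (m : ℕ) (c : E), 0 < m ∧ c ≠ 0 ∧ W.valuation w ^ m = W.valuation (algebraMap E F c) := by
  classical
  obtain ⟨P, hP0, hPw⟩ := Algebra.IsAlgebraic.isAlgebraic (R := E) w
  set t : ℕ → F := fun k => algebraMap E F (P.coeff k) * w ^ k with ht
  have hsum : ∑ k ∈ P.support, t k = 0 := by
    rw [← hPw, Polynomial.aeval_def, Polynomial.eval₂_eq_sum, Polynomial.sum_def]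
  have hne : P.support.Nonempty := Polynomial.support_nonempty.2 hP0
  have hvw : W.valuation w ≠ 0 := (Valuation.ne_zero_iff _).2 hw
  have htk : ∀ k ∈ P.support, t k ≠ 0 := fun k hk =>
    mul_ne_zero ((map_ne_zero _).2 (Polynomial.mem_support_iff.1 hk)) (pow_ne_zero _ hw)
  have key : ∀ k l : ℕ, k < l → k ∈ P.support → l ∈ P.support →
      W.valuation (t k) = W.valuation (t l) →
      ∃ (m : ℕ) (c : E), 0 < m ∧ c ≠ 0 ∧
        W.valuation w ^ m = W.valuation (algebraMap E F c) := by
    intro k l hkl hk hl h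
    have hck : P.coeff k ≠ 0 := Polynomial.mem_support_iff.1 hk
    have hcl : P.coeff l ≠ 0 := Polynomial.mem_support_iff.1 hl
    refine ⟨l - k, P.coeff k / P.coeff l, by omega, div_ne_zero hck hcl, ?_⟩
    have hvl : W.valuation (algebraMap E F (P.coeff l)) ≠ 0 :=
      (Valuation.ne_zero_iff _).2 ((map_ne_zero _).2 hcl)
    simp only [ht, map_mul, map_pow] at h
    obtain ⟨d, rfl⟩ : ∃ d, l = k + d := ⟨l - k, by omega⟩
    rw [Nat.add_sub_cancel_left, map_div₀, map_div₀, eq_div_iff hvl]
    have hk0 : W.valuation w ^ k ≠ 0 := pow_ne_zero _ hvw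
    apply mul_right_cancel₀ hk0
    rw [h, pow_add]
    ac_rfl
  obtain ⟨k, hk, hmax⟩ := Finset.exists_max_image P.support (fun k => W.valuation (t k)) hne
  have hex : ∃ l ∈ P.support.erase k, W.valuation (t k) ≤ W.valuation (t l) := by
    by_contra hcon
    simp only [not_exists, not_and, not_le] at hcon
    have h1 : W.valuation (∑ l ∈ P.support.erase k, t l) < W.valuation (t k) :=
      Valuation.map_sum_lt _ ((Valuation.ne_zero_iff _).2 (htk k hk)) hcon
    have h2 : t k + ∑ l ∈ P.support.erase k, t l = 0 := by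
      rw [Finset.add_sum_erase _ _ hk, hsum]
    have h3 : W.valuation (t k + ∑ l ∈ P.support.erase k, t l) = W.valuation (t k) :=
      Valuation.map_add_eq_of_lt_left _ h1
    rw [h2, map_zero] at h3
    exact (Valuation.ne_zero_iff _).2 (htk k hk) h3.symm
  obtain ⟨l, hl, hle⟩ := hex
  have hlk : l ≠ k := (Finset.mem_erase.1 hl).1
  have hl' : l ∈ P.support := (Finset.mem_erase.1 hl).2
  have heq : W.valuation (t k) = W.valuation (t l) := le_antisymm hle (hmax l hl')
  rcases lt_or_gt_of_ne hlk with h | h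
  · exact key l k h hl' hk heq.symm
  · exact key k l h hk hl' heq

end T

section A

variable {E F : Type*} [Field E] [Field F] [Algebra E F]
  {V : ValuationSubring E} {W : ValuationSubring F}

theorem val_map_le_one (hl : ∀ z : E, algebraMap E F z ∈ W ↔ z ∈ V) (z : E) :
    W.valuation (algebraMap E F z) ≤ 1 ↔ V.valuation z ≤ 1 := by
  rw [ValuationSubring.valuation_le_one_iff, ValuationSubring.valuation_le_one_iff, hl]

theorem val_map_le (hl : ∀ z : E, algebraMap E F z ∈ W ↔ z ∈ V) (x y : E) :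
    W.valuation (algebraMap E F x) ≤ W.valuation (algebraMap E F y) ↔
      V.valuation x ≤ V.valuation y := by
  rcases eq_or_ne y 0 with rfl | hy
  · simp
  · have h1 : V.valuation y ≠ 0 := (Valuation.ne_zero_iff _).2 hy
    have h2 : W.valuation (algebraMap E F y) ≠ 0 :=
      (Valuation.ne_zero_iff _).2 ((map_ne_zero _).2 hy)
    have h := val_map_le_one hl (x / y)
    rwa [map_div₀, map_div₀, map_div₀, div_le_one₀ (zero_lt_iff.2 h1),
      div_le_one₀ (zero_lt_iff.2 h2)] at h

theorem val_map_lt (hl : ∀ z : E, algebraMap E F z ∈ W ↔ z ∈ V) (x y : E) :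
    W.valuation (algebraMap E F x) < W.valuation (algebraMap E F y) ↔
      V.valuation x < V.valuation y := by
  rw [← not_le, ← not_le, val_map_le hl]

theorem val_map_eq (hl : ∀ z : E, algebraMap E F z ∈ W ↔ z ∈ V) (x y : E) :
    W.valuation (algebraMap E F x) = W.valuation (algebraMap E F y) ↔
      V.valuation x = V.valuation y := by
  rw [le_antisymm_iff, le_antisymm_iff, val_map_le hl, val_map_le hl]

variable [Algebra.IsAlgebraic E F] {ϖ : E}

/-- upper bound -/
theorem exists_pow_le_unif (hl : ∀ z : E, algebraMap E F z ∈ W ↔ z ∈ V) (hV : IsUnif V ϖ) {a : F}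
    (ha : W.valuation a < 1) :
    ∃ m : ℕ, 0 < m ∧ W.valuation a ^ m ≤ W.valuation (algebraMap E F ϖ) := by
  rcases eq_or_ne a 0 with rfl | ha0
  · exact ⟨1, one_pos, by simp⟩
  obtain ⟨m, c, hm, -, h⟩ := exists_pow_val_eq (E := E) W ha0
  refine ⟨m, hm, ?_⟩
  have h1 : W.valuation (algebraMap E F c) < W.valuation (algebraMap E F 1) := by
    rw [← h, map_one, map_one]
    exact pow_lt_one' ha hm.ne'
  rw [val_map_lt hl, map_one] at h1
  rw [h, val_map_le hl]
  exact approx_val_le_unif hV h1

/-- lower bound -/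
theorem exists_pow_mul_le_one (hl : ∀ z : E, algebraMap E F z ∈ W ↔ z ∈ V) (hV : IsUnif V ϖ)
    (b : F) : ∃ n : ℕ, W.valuation (algebraMap E F ϖ) ^ n * W.valuation b ≤ 1 := by
  rcases eq_or_ne b 0 with rfl | hb0
  · exact ⟨0, by simp⟩
  obtain ⟨m, c, hm, -, h⟩ := exists_pow_val_eq (E := E) W hb0
  obtain ⟨r, hr⟩ := hV.exists_pow_mul_mem c
  refine ⟨r, ?_⟩
  have h1 : W.valuation (algebraMap E F ϖ) ^ r * W.valuation (algebraMap E F c) ≤ 1 := by
    have := (val_map_le_one hl _).2 ((V.valuation_le_one_iff _).2 hr)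
    rwa [map_mul, map_pow, map_mul, map_pow] at this
  have h2 : W.valuation (algebraMap E F ϖ) ≤ 1 :=
    (val_map_le_one hl _).2 ((V.valuation_le_one_iff _).2 hV.mem)
  rw [← pow_le_one_iff hm.ne', mul_pow, h]
  obtain ⟨k, rfl⟩ : ∃ k, m = k + 1 := ⟨m - 1, by omega⟩
  calc (W.valuation (algebraMap E F ϖ) ^ r) ^ (k + 1) * W.valuation (algebraMap E F c)
      = (W.valuation (algebraMap E F ϖ) ^ r) ^ k *
          (W.valuation (algebraMap E F ϖ) ^ r * W.valuation (algebraMap E F c)) := by
        rw [pow_succ, mul_assoc]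
    _ ≤ 1 * 1 := mul_le_mul' (pow_le_one' (pow_le_one' h2 r) k) h1
    _ = 1 := one_mul 1

/-- the archimedean property -/
theorem eventually_lt_one (hl : ∀ z : E, algebraMap E F z ∈ W ↔ z ∈ V) (hV : IsUnif V ϖ) {a : F}
    (ha : W.valuation a < 1) (b : F) : ∀ᶠ r : ℕ in atTop, W.valuation (a ^ r * b) < 1 := by
  obtain ⟨m, hm, h1⟩ := exists_pow_le_unif hl hV ha
  obtain ⟨n, h2⟩ := exists_pow_mul_le_one hl hV b
  have h3 : W.valuation (algebraMap E F ϖ) < 1 := by
    have := (val_map_lt hl ϖ 1).2 (by rw [map_one]; exact approx_val_unif_lt_one hV)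
    rwa [map_one, map_one] at this
  filter_upwards [eventually_ge_atTop (m * (n + 1))] with r hr
  obtain ⟨s, rfl⟩ : ∃ s, r = m * (n + 1) + s := ⟨r - m * (n + 1), by omega⟩
  calc W.valuation (a ^ (m * (n + 1) + s) * b)
      = (W.valuation a ^ m) ^ (n + 1) * W.valuation a ^ s * W.valuation b := by
        rw [map_mul, map_pow, pow_add, pow_mul]
    _ ≤ W.valuation (algebraMap E F ϖ) ^ (n + 1) * 1 * W.valuation b :=
        mul_le_mul' (mul_le_mul' (pow_le_pow_left' h1 _) (pow_le_one' ha.le s)) le_rfl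
    _ = W.valuation (algebraMap E F ϖ) * (W.valuation (algebraMap E F ϖ) ^ n * W.valuation b) := by
        rw [mul_one, pow_succ', mul_assoc]
    _ ≤ W.valuation (algebraMap E F ϖ) * 1 := mul_le_mul' le_rfl h2
    _ < 1 := by rwa [mul_one]

end A

section S

variable {F : Type*} [Field F]

theorem pair_sep {W W' : ValuationSubring F} (h1 : ¬ W ≤ W') (h2 : ¬ W' ≤ W) :
    ∃ a : F, 1 < W.valuation a ∧ W'.valuation a < 1 := by
  obtain ⟨a, ha', ha⟩ := SetLike.not_le_iff_exists.mp h2
  obtain ⟨b, hb, hb'⟩ := SetLike.not_le_iff_exists.mp h1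
  have hb0 : b ≠ 0 := by
    rintro rfl
    exact hb' W'.zero_mem
  rw [← ValuationSubring.valuation_le_one_iff] at ha ha' hb hb'
  rw [not_le] at ha hb'
  have h1 : W.valuation b ≠ 0 := (Valuation.ne_zero_iff _).mpr hb0
  have h2 : W'.valuation b ≠ 0 := (Valuation.ne_zero_iff _).mpr hb0
  refine ⟨a / b, ?_, ?_⟩
  · rw [map_div₀, one_lt_div₀ (zero_lt_iff.mpr h1)]
    exact lt_of_le_of_lt hb ha
  · rw [map_div₀, div_lt_one₀ (zero_lt_iff.mpr h2)]
    exact lt_of_le_of_lt ha' hb'

variable {ι : Type*} (W : ι → ValuationSubring F)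

/-- separation of finitely many pairwise incomparable archimedean valuation rings -/
theorem sep (hinc : ∀ i j, i ≠ j → ¬ W i ≤ W j)
    (harch : ∀ j (a b : F), (W j).valuation a < 1 →
      ∀ᶠ r : ℕ in atTop, (W j).valuation (a ^ r * b) < 1)
    (c : ι) (hc1 : ∃ a : F, 1 < (W c).valuation a) (S : Finset ι) (hc : c ∉ S) :
    ∃ a : F, 1 < (W c).valuation a ∧ ∀ j ∈ S, (W j).valuation a < 1 := by
  classical
  induction S using Finset.induction_on with
  | empty =>
    obtain ⟨a, ha⟩ := hc1
    exact ⟨a, ha, by simp⟩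
  | insert m S hm ih =>
    rw [Finset.mem_insert, not_or] at hc
    obtain ⟨a, hac, haS⟩ := ih hc.2
    obtain ⟨b, hbc, hbm⟩ := pair_sep (hinc c m hc.1) (hinc m c (Ne.symm hc.1))
    have hev : ∀ᶠ r : ℕ in atTop, ∀ j ∈ S, (W j).valuation (a ^ r * b) < 1 :=
      (Filter.eventually_all_finset S).mpr fun j hj => harch j a b (haS j hj)
    obtain ⟨r, hr, hr1⟩ := (hev.and (eventually_ge_atTop 1)).exists
    have hr0 : r ≠ 0 := by omega
    rcases le_or_gt ((W m).valuation a) 1 with hle | hgt
    · refine ⟨a ^ r * b, ?_, ?_⟩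
      · rw [map_mul, map_pow]
        exact lt_of_lt_of_le hbc (le_mul_of_one_le_left' (one_le_pow_of_one_le' hac.le r))
      · intro j hj
        rcases Finset.mem_insert.mp hj with rfl | hj
        · rw [map_mul, map_pow]
          exact lt_of_le_of_lt (mul_le_of_le_one_left' (pow_le_one' hle r)) hbm
        · exact hr j hj
    · refine ⟨a ^ r / (1 + a ^ r) * b, ?_, ?_⟩
      · rw [map_mul, approx_val_div_one_add_of_gt (by rw [map_pow]; exact one_lt_pow' hac hr0),
          one_mul]
        exact hbc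
      · intro j hj
        rcases Finset.mem_insert.mp hj with rfl | hj
        · rw [map_mul, approx_val_div_one_add_of_gt (by rw [map_pow]; exact one_lt_pow' hgt hr0),
            one_mul]
          exact hbm
        · rw [map_mul, approx_val_div_one_add_of_lt
            (by rw [map_pow]; exact pow_lt_one' (haS j hj) hr0), ← map_mul]
          exact hr j hj

end S

end Fermat.Agent.S44.X.Cover.Unif

end
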