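/-
S44 / X / COVER / UNIF (owner helper223): `nodeUnif : NodeUnif`.
`p` distinct sheets in a cyclic extension of degree `p` above a discrete valuation ring are
unramified (`e = 1`): for `x ≠ 0` choose `z` with `v_i(z) = v_i(x)` and `v_j(z) = 1` for `j ≠ i`;
then `v_i(x) = v_i(N z)` is a value of the base field.
-/
import Fermat.Agent.S44.X.Cover.Nodes
import Fermat.Agent.S44.X.Cover.Unif.Arch
import Fermat.Agent.S44.X.PL.Artin

set_option autoImplicit false

noncomputable section

namespace Fermat.Agent.S44.X.Cover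

open Fermat.Agent.S18 Fermat.Agent.S36.BP Filter

section U

variable {E F : Type*} [Field E] [Field F] [Algebra E F] {p : ℕ} [Fact p.Prime]
  {σ : F ≃ₐ[E] F} {V : ValuationSubring E} {W : ZMod p → ValuationSubring F}

theorem Unif.val_eq_one_iff (W : ValuationSubring F) {z : F} (hz : z ≠ 0) :
    W.valuation z = 1 ↔ z ∈ W ∧ z⁻¹ ∈ W := by
  have hv : W.valuation z ≠ 0 := (Valuation.ne_zero_iff _).2 hz
  rw [← ValuationSubring.valuation_le_one_iff, ← ValuationSubring.valuation_le_one_iff, map_inv₀,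
    inv_le_one₀ (zero_lt_iff.2 hv)]
  exact le_antisymm_iff

theorem PreSheets.pow_mem (h : PreSheets p σ V W) (k : ℕ) (i : ZMod p) (z : F) :
    (σ ^ k) z ∈ W i ↔ z ∈ W (i + k) := by
  induction k generalizing i z with
  | zero => simp
  | succ k ih =>
    rw [pow_succ, AlgEquiv.mul_apply, ih, h.shift, Nat.cast_succ, add_assoc]

theorem PreSheets.val_pow_eq_one (h : PreSheets p σ V W) (k : ℕ) (i : ZMod p) {z : F}
    (hz : z ≠ 0) : (W i).valuation ((σ ^ k) z) = 1 ↔ (W (i + k)).valuation z = 1 := by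
  rw [Unif.val_eq_one_iff _ hz, Unif.val_eq_one_iff _ ((map_ne_zero _).2 hz), ← map_inv₀,
    h.pow_mem, h.pow_mem]

/-- the sheets are pairwise incomparable -/
theorem PreSheets.not_le (h : PreSheets p σ V W) {i j : ZMod p} (hij : i ≠ j) : ¬ W i ≤ W j := by
  intro hle
  have h1 : ∀ n : ℕ, W (i + n) ≤ W (j + n) := by
    intro n
    induction n with
    | zero => simpa using hle
    | succ n ih =>
      intro z hz
      rw [Nat.cast_succ, ← add_assoc, ← h.shift] at hz ⊢
      exact ih hz
  have h2 : ∀ x : ZMod p, W x ≤ W (x + (j - i)) := by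
    intro x
    have h := h1 (x - i).val
    rw [ZMod.natCast_zmod_val] at h
    have e1 : i + (x - i) = x := by ring
    have e2 : j + (x - i) = x + (j - i) := by ring
    rwa [e1, e2] at h
  have h3 : ∀ n : ℕ, W j ≤ W (j + n * (j - i)) := by
    intro n
    induction n with
    | zero => simp
    | succ n ih =>
      refine le_trans ih ?_
      have e : j + ((n + 1 : ℕ) : ZMod p) * (j - i) = j + n * (j - i) + (j - i) := by
        push_cast
        ring
      rw [e]
      exact h2 _
  have h4 := h3 (p - 1)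
  have e : j + ((p - 1 : ℕ) : ZMod p) * (j - i) = i := by
    have : ((p - 1 : ℕ) : ZMod p) = -1 := by
      rw [Nat.cast_sub (Fact.out : p.Prime).one_le]
      simp
    rw [this]
    ring
  rw [e] at h4
  exact hij (h.inj (le_antisymm hle h4))

theorem PreSheets.ne_one (h : PreSheets p σ V W) : σ ≠ 1 := by
  rintro rfl
  have h1 : (0 : ZMod p) ≠ 0 + 1 := by
    rw [zero_add]
    exact zero_ne_one
  refine h.not_le h1 fun z hz => ?_
  rw [← h.shift]
  exact hz

omit [Fact p.Prime] in
/-- the norm -/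
theorem Unif.prod_fixed (hpow : σ ^ p = 1) {z : F} (hz : z ≠ 0) :
    σ (∏ k ∈ Finset.range p, (σ ^ k) z) = ∏ k ∈ Finset.range p, (σ ^ k) z := by
  have h1 : σ (∏ k ∈ Finset.range p, (σ ^ k) z) = ∏ k ∈ Finset.range p, (σ ^ (k + 1)) z := by
    rw [map_prod]
    refine Finset.prod_congr rfl fun k _ => ?_
    rw [pow_succ', AlgEquiv.mul_apply]
  have h2 := Finset.prod_range_succ' (fun k => (σ ^ k) z) p
  rw [Finset.prod_range_succ, hpow, pow_zero] at h2
  rw [h1]
  exact (mul_right_cancel₀ (by simpa using hz) h2).symm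

/-- **the value group does not grow** -/
theorem PreSheets.exists_val_eq (h : PreSheets p σ V W) (hpow : σ ^ p = 1)
    (hfix : ∀ z, σ z = z → z ∈ (algebraMap E F).range) (hV : IsUnif V (p : E)) (i : ZMod p)
    {x : F} (hx : x ≠ 0) :
    ∃ c : E, c ≠ 0 ∧ (W i).valuation x = (W i).valuation (algebraMap E F c) := by
  classical
  obtain ⟨hfd, -, -⟩ := PL.cyc_of_fixed σ hpow h.ne_one hfix
  have harch : ∀ j (a b : F), (W j).valuation a < 1 →
      ∀ᶠ r : ℕ in atTop, (W j).valuation (a ^ r * b) < 1 :=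
    fun j a b ha => Unif.eventually_lt_one (h.lies j) hV ha b
  have hp1 : (W i).valuation (algebraMap E F (p : E)) < 1 := by
    have := (Unif.val_map_lt (h.lies i) (p : E) 1).2
      (by rw [map_one]; exact approx_val_unif_lt_one hV)
    rwa [map_one, map_one] at this
  have hp0 : (W i).valuation (algebraMap E F (p : E)) ≠ 0 :=
    (Valuation.ne_zero_iff _).2 ((map_ne_zero _).2 hV.ne_zero)
  have hc1 : ∃ a : F, 1 < (W i).valuation a :=
    ⟨(algebraMap E F (p : E))⁻¹, by
      rw [map_inv₀]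
      exact (one_lt_inv₀ (zero_lt_iff.2 hp0)).2 hp1⟩
  obtain ⟨a, hai, haj⟩ := Unif.sep W (fun _ _ hij => h.not_le hij) harch i hc1
    (Finset.univ.erase i) (Finset.notMem_erase i _)
  have haj' : ∀ j, j ≠ i → (W j).valuation a < 1 := fun j hj =>
    haj j (Finset.mem_erase.2 ⟨hj, Finset.mem_univ _⟩)
  -- the two approximate idempotents
  have hei : (W i).valuation (a / (1 + a)) = 1 := approx_val_div_one_add_of_gt hai
  have hej : ∀ j, j ≠ i → (W j).valuation (a / (1 + a)) < 1 := fun j hj => by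
    rw [approx_val_div_one_add_of_lt (haj' j hj)]
    exact haj' j hj
  have hsi : (W i).valuation (1 + a)⁻¹ < 1 := by
    rw [map_inv₀, Valuation.map_add_eq_of_lt_right _ (by rwa [map_one])]
    exact inv_lt_one_of_one_lt₀ hai
  have hsj : ∀ j, j ≠ i → (W j).valuation (1 + a)⁻¹ = 1 := fun j hj => by
    rw [map_inv₀, Valuation.map_one_add_of_lt _ (haj' j hj), inv_one]
  have hev : ∀ᶠ r : ℕ in atTop, (W i).valuation ((1 + a)⁻¹ ^ r * x⁻¹) < 1 ∧
      ∀ j ∈ Finset.univ.erase i, (W j).valuation ((a / (1 + a)) ^ r * x) < 1 :=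
    (harch i _ _ hsi).and ((Filter.eventually_all_finset _).mpr fun j hj =>
      harch j _ _ (hej j (Finset.mem_erase.1 hj).1))
  obtain ⟨r, hr1, hr2⟩ := hev.exists
  set z : F := (a / (1 + a)) ^ r * x + (1 + a)⁻¹ ^ r with hz
  have hvx : (W i).valuation x ≠ 0 := (Valuation.ne_zero_iff _).2 hx
  have hzi : (W i).valuation z = (W i).valuation x := by
    have h1 : (W i).valuation ((a / (1 + a)) ^ r * x) = (W i).valuation x := by
      rw [map_mul, map_pow, hei, one_pow, one_mul]
    have h2 : (W i).valuation ((1 + a)⁻¹ ^ r) < (W i).valuation ((a / (1 + a)) ^ r * x) := by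
      rw [h1]
      rw [map_mul, map_inv₀, ← div_eq_mul_inv, div_lt_one₀ (zero_lt_iff.2 hvx)] at hr1
      exact hr1
    rw [hz, Valuation.map_add_eq_of_lt_left _ h2, h1]
  have hzj : ∀ j, j ≠ i → (W j).valuation z = 1 := fun j hj => by
    have h1 : (W j).valuation ((1 + a)⁻¹ ^ r) = 1 := by rw [map_pow, hsj j hj, one_pow]
    have h2 : (W j).valuation ((a / (1 + a)) ^ r * x) < (W j).valuation ((1 + a)⁻¹ ^ r) := by
      rw [h1]
      exact hr2 j (Finset.mem_erase.2 ⟨hj, Finset.mem_univ _⟩)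
    rw [hz, Valuation.map_add_eq_of_lt_right _ h2, h1]
  have hz0 : z ≠ 0 := by
    intro h0
    rw [h0, map_zero] at hzi
    exact hvx hzi.symm
  obtain ⟨c, hc⟩ := hfix _ (Unif.prod_fixed hpow hz0)
  have hval : (W i).valuation (∏ k ∈ Finset.range p, (σ ^ k) z) = (W i).valuation x := by
    rw [map_prod, Finset.prod_eq_single 0, pow_zero, AlgEquiv.one_apply, hzi]
    · intro k hk hk0
      rw [h.val_pow_eq_one k i hz0]
      apply hzj
      intro hcon
      have h0 : (k : ZMod p) = 0 := by simpa using hcon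
      rw [ZMod.natCast_eq_zero_iff] at h0
      exact hk0 (Nat.eq_zero_of_dvd_of_lt h0 (Finset.mem_range.1 hk))
    · intro h0
      exact absurd (Finset.mem_range.2 (Fact.out : p.Prime).pos) h0
  refine ⟨c, ?_, by rw [hc, hval]⟩
  rintro rfl
  rw [← hc, map_zero, map_zero] at hval
  exact hvx hval.symm

theorem PreSheets.isUnif (h : PreSheets p σ V W) (hpow : σ ^ p = 1)
    (hfix : ∀ z, σ z = z → z ∈ (algebraMap E F).range) (hV : IsUnif V (p : E)) (i : ZMod p) :
    IsUnif (W i) (p : F) where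
  mem := natCast_mem _ p
  inv_notMem := by
    intro hmem
    apply hV.inv_notMem
    rw [← h.lies i, map_inv₀, map_natCast]
    exact hmem
  exists_zpow := by
    intro y hy
    obtain ⟨c, hc, hyc⟩ := h.exists_val_eq hpow hfix hV i hy
    obtain ⟨n, h1, h2⟩ := hV.exists_zpow c hc
    have hp0 : (p : E) ≠ 0 := hV.ne_zero
    have hpF : (p : F) ≠ 0 := by
      have := (map_ne_zero (algebraMap E F)).2 hp0
      rwa [map_natCast] at this
    have hne : c / (p : E) ^ n ≠ 0 := div_ne_zero hc (zpow_ne_zero _ hp0)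
    have h3 : (W i).valuation (algebraMap E F (c / (p : E) ^ n)) = 1 := by
      rw [Unif.val_eq_one_iff _ ((map_ne_zero _).2 hne), ← map_inv₀, h.lies, h.lies]
      exact ⟨h1, h2⟩
    refine ⟨n, ?_⟩
    rw [← Unif.val_eq_one_iff _ (div_ne_zero hy (zpow_ne_zero _ hpF)), map_div₀, hyc]
    rwa [map_div₀, map_zpow₀, map_natCast, map_div₀] at h3

/-- the sheets in the sense of block PL -/
theorem PreSheets.sheets (h : PreSheets p σ V W) (hpow : σ ^ p = 1)
    (hfix : ∀ z, σ z = z → z ∈ (algebraMap E F).range) (hV : IsUnif V (p : E)) :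
    PL.Sheets p σ V W where
  lies := h.lies
  shift := h.shift
  inj := h.inj
  unif := h.isUnif hpow hfix hV

end U

/-- **Node Unif.** -/
theorem nodeUnif : NodeUnif := by
  intro E F _ _ _ p σ hp hpow hfix V W h hV i
  have : Fact p.Prime := ⟨hp⟩
  exact h.isUnif hpow hfix hV i

end Fermat.Agent.S44.X.Cover

end
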